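/-
Programme S12, brick 750 VELU-DEF (helper34): **Vélu's formulas — the shared DEFINITIONS**.

`V` a Weierstrass curve over a field `F`, `Q` a point of `V` (of odd order `p`; the kernel is the
group of multiples of `Q`).  With `x = xco`, `y = yco`, `ψ₂ = psi2 = 2y + a₁x + a₃` of
`MAZ/EF86/ModInv` (value `0` at the origin):

* `tq V R = 6 x(R)² + b₂ x(R) + b₄`,  `uq V R = ψ₂(R)²`;
* `veluT V Q p = ∑_{k=1}^{(p-1)/2} t(kQ)`,  `veluW V Q p = ∑_{k=1}^{(p-1)/2} (u(kQ) + x(kQ) t(kQ))`;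
* `veluCurve V Q p = [a₁, a₂, a₃, a₄ - 5t, a₆ - b₂ t - 7w]` (the quotient curve `V/⟨Q⟩`);
* `veluX V Q p R = x(R) + ∑_{k=1}^{p-1} (x(R + kQ) - x(kQ))`,
  `veluY V Q p R = y(R) + ∑_{k=1}^{p-1} (y(R + kQ) - y(kQ))` (the isogeny in coordinates).

First lemmas: the invariants `b₂, b₄, b₆, c₄` of `veluCurve`.  Mathlib + `ModInv` only.
-/
import Mathlib
import Fermat.Agent.MAZ.EF86.ModInv

set_option autoImplicit false
set_option linter.unusedSectionVars false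

open WeierstrassCurve

noncomputable section

namespace Fermat.Agent.S12P.VeluDef34

open Fermat.Agent.MAZ.ModInv

variable {F : Type*} [Field F] [DecidableEq F] (V : WeierstrassCurve F)

/-- Vélu's `t_R = 6x² + b₂x + b₄` (for `R` not of order `2`). -/
def tq (R : V.toAffine.Point) : F := 6 * xco V R ^ 2 + V.b₂ * xco V R + V.b₄

/-- Vélu's `u_R = ψ₂(R)² = (2y + a₁x + a₃)²`. -/
def uq (R : V.toAffine.Point) : F := psi2 V R ^ 2

/-- Vélu's `t = ∑_{k=1}^{(p-1)/2} t(kQ)` (half-system of the kernel `⟨Q⟩`, `p` odd). -/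
def veluT (Q : V.toAffine.Point) (p : ℕ) : F :=
  ∑ k ∈ Finset.Ico 1 ((p + 1) / 2), tq V (k • Q)

/-- Vélu's `w = ∑_{k=1}^{(p-1)/2} (u(kQ) + x(kQ) t(kQ))`. -/
def veluW (Q : V.toAffine.Point) (p : ℕ) : F :=
  ∑ k ∈ Finset.Ico 1 ((p + 1) / 2), (uq V (k • Q) + xco V (k • Q) * tq V (k • Q))

/-- **Vélu's quotient curve** `V/⟨Q⟩ : y² + a₁xy + a₃y = x³ + a₂x² + (a₄ - 5t)x + (a₆ - b₂t - 7w)`. -/
def veluCurve (Q : V.toAffine.Point) (p : ℕ) : WeierstrassCurve F :=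
  ⟨V.a₁, V.a₂, V.a₃, V.a₄ - 5 * veluT V Q p, V.a₆ - V.b₂ * veluT V Q p - 7 * veluW V Q p⟩

/-- **Vélu's isogeny, `x`-coordinate**: `X(R) = x(R) + ∑_{k=1}^{p-1} (x(R + kQ) - x(kQ))`. -/
def veluX (Q : V.toAffine.Point) (p : ℕ) (R : V.toAffine.Point) : F :=
  xco V R + ∑ k ∈ Finset.Ico 1 p, (xco V (R + k • Q) - xco V (k • Q))

/-- **Vélu's isogeny, `y`-coordinate**: `Y(R) = y(R) + ∑_{k=1}^{p-1} (y(R + kQ) - y(kQ))`. -/
def veluY (Q : V.toAffine.Point) (p : ℕ) (R : V.toAffine.Point) : F :=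
  yco V R + ∑ k ∈ Finset.Ico 1 p, (yco V (R + k • Q) - yco V (k • Q))

/-! ### Unfolding lemmas -/

@[simp] theorem tq_zero : tq V (0 : V.toAffine.Point) = V.b₄ := by
  simp [tq]

@[simp] theorem uq_zero : uq V (0 : V.toAffine.Point) = 0 := by
  simp [uq]

theorem tq_some {x y : F} (h : V.toAffine.Nonsingular x y) :
    tq V (Affine.Point.some x y h) = 6 * x ^ 2 + V.b₂ * x + V.b₄ := rfl

theorem uq_some {x y : F} (h : V.toAffine.Nonsingular x y) :
    uq V (Affine.Point.some x y h) = (2 * y + V.a₁ * x + V.a₃) ^ 2 := rfl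

variable (Q : V.toAffine.Point) (p : ℕ)

@[simp] theorem veluCurve_a₁ : (veluCurve V Q p).a₁ = V.a₁ := rfl
@[simp] theorem veluCurve_a₂ : (veluCurve V Q p).a₂ = V.a₂ := rfl
@[simp] theorem veluCurve_a₃ : (veluCurve V Q p).a₃ = V.a₃ := rfl
@[simp] theorem veluCurve_a₄ : (veluCurve V Q p).a₄ = V.a₄ - 5 * veluT V Q p := rfl
@[simp] theorem veluCurve_a₆ :
    (veluCurve V Q p).a₆ = V.a₆ - V.b₂ * veluT V Q p - 7 * veluW V Q p := rfl

/-! ### The invariants of the quotient curve -/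

theorem veluCurve_b₂ : (veluCurve V Q p).b₂ = V.b₂ := by
  simp only [WeierstrassCurve.b₂, veluCurve_a₁, veluCurve_a₂]

theorem veluCurve_b₄ : (veluCurve V Q p).b₄ = V.b₄ - 10 * veluT V Q p := by
  simp only [WeierstrassCurve.b₄, veluCurve_a₁, veluCurve_a₃, veluCurve_a₄]
  ring

theorem veluCurve_b₆ :
    (veluCurve V Q p).b₆ = V.b₆ - 4 * V.b₂ * veluT V Q p - 28 * veluW V Q p := by
  simp only [WeierstrassCurve.b₆, veluCurve_a₃, veluCurve_a₆]
  ring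

theorem veluCurve_c₄ : (veluCurve V Q p).c₄ = V.c₄ + 240 * veluT V Q p := by
  simp only [WeierstrassCurve.c₄, veluCurve_b₂, veluCurve_b₄]
  ring

theorem veluCurve_c₆ :
    (veluCurve V Q p).c₆ = V.c₆ + 504 * V.b₂ * veluT V Q p + 6048 * veluW V Q p := by
  simp only [WeierstrassCurve.c₆, veluCurve_b₂, veluCurve_b₄, veluCurve_b₆]
  ring

@[simp] theorem veluX_zero_point : veluX V Q p 0 = 0 := by
  simp [veluX]

@[simp] theorem veluY_zero_point : veluY V Q p 0 = 0 := by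
  simp [veluY]

end Fermat.Agent.S12P.VeluDef34
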